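import Mathlib

set_option autoImplicit false

/-!
# S14 / NS: the analytic contradiction
-/

namespace Fermat.Agent.S14.Sep

open NumberField

/-- The prime-ideal asymptotics `∑_l a(l) l^{-s} = log (1/(s-1)) + O(1)` for an arithmetic
function `a`. -/
def HasLogAsymp (a : ℕ → ℕ) : Prop :=
  (∀ s : ℝ, 1 < s → Summable fun l : Nat.Primes => (a l : ℝ) * ((l : ℕ) : ℝ) ^ (-s)) ∧
    ∃ C : ℝ, ∀ s : ℝ, 1 < s → s ≤ 2 →
      |∑' l : Nat.Primes, (a l : ℝ) * ((l : ℕ) : ℝ) ^ (-s) - Real.log (1 / (s - 1))| ≤ C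

/-- Two functions with the same logarithmic asymptotics cannot satisfy `p * aF ≤ aM` outside a
finite set, if `p ≥ 2`. -/
theorem false_of_hasLogAsymp (aF aM : ℕ → ℕ) (p : ℕ) (hp : 2 ≤ p) (B : Finset ℕ)
    (hle : ∀ l : Nat.Primes, (l : ℕ) ∉ B → p * aF l ≤ aM l)
    (hF : HasLogAsymp aF) (hM : HasLogAsymp aM) : False := by
  classical
  obtain ⟨hsF, CF, hCF⟩ := hF
  obtain ⟨hsM, CM, hCM⟩ := hM
  set ind : Nat.Primes → ℝ := fun l => if (l : ℕ) ∈ B then (p : ℝ) * aF l else 0 with hind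
  have hindsum : Summable ind := by
    apply summable_of_hasFiniteSupport
    have : (Function.support ind) ⊆ ((↑) : Nat.Primes → ℕ) ⁻¹' (B : Set ℕ) := by
      intro l hl
      by_contra hlB
      exact hl (if_neg hlB)
    exact (Set.Finite.preimage (Subtype.val_injective.injOn) B.finite_toSet).subset this
  set K : ℝ := ∑' l, ind l with hK
  have key : ∀ s : ℝ, 1 < s → s ≤ 2 →
      ((p : ℝ) - 1) * Real.log (1 / (s - 1)) ≤ CM + p * CF + K := by
    intro s hs hs2
    have h1 : ∀ l : Nat.Primes, (p : ℝ) * ((aF l : ℝ) * ((l : ℕ) : ℝ) ^ (-s)) - ind l ≤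
        (aM l : ℝ) * ((l : ℕ) : ℝ) ^ (-s) := by
      intro l
      have hl1 : (1 : ℝ) ≤ ((l : ℕ) : ℝ) := by exact_mod_cast l.2.one_lt.le
      have hpow0 : 0 ≤ ((l : ℕ) : ℝ) ^ (-s) := Real.rpow_nonneg (by linarith) _
      have hpow1 : ((l : ℕ) : ℝ) ^ (-s) ≤ 1 :=
        Real.rpow_le_one_of_one_le_of_nonpos hl1 (by linarith)
      by_cases hlB : (l : ℕ) ∈ B
      · have : ind l = (p : ℝ) * aF l := if_pos hlB
        rw [this]
        have h2 : (p : ℝ) * ((aF l : ℝ) * ((l : ℕ) : ℝ) ^ (-s)) ≤ (p : ℝ) * aF l := by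
          have : (0 : ℝ) ≤ (p : ℝ) * aF l := by positivity
          nlinarith
        have h3 : (0 : ℝ) ≤ (aM l : ℝ) * ((l : ℕ) : ℝ) ^ (-s) := by positivity
        linarith
      · have : ind l = 0 := if_neg hlB
        rw [this, sub_zero, ← mul_assoc]
        have h2 : ((p : ℝ) * aF l) ≤ aM l := by exact_mod_cast hle l hlB
        exact mul_le_mul_of_nonneg_right h2 hpow0
    have h2 := ((hsF s hs).mul_left (p : ℝ)).sub hindsum
    have h3 := h2.tsum_le_tsum h1 (hsM s hs)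
    rw [((hsF s hs).mul_left (p : ℝ)).tsum_sub hindsum, tsum_mul_left] at h3
    have h4 := abs_le.1 (hCF s hs hs2)
    have h5 := abs_le.1 (hCM s hs hs2)
    have hp0 : (0 : ℝ) ≤ p := by positivity
    nlinarith [h4.1, h5.2]
  -- choose `s` close to `1`
  set T : ℝ := |CM + p * CF + K| + 1 with hT
  have hTpos : 0 < T := by positivity
  have hs1 : 1 < 1 + Real.exp (-T) := by linarith [Real.exp_pos (-T)]
  have hs2 : 1 + Real.exp (-T) ≤ 2 := by
    have : Real.exp (-T) ≤ 1 := Real.exp_le_one_iff.2 (by linarith)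
    linarith
  have h := key _ hs1 hs2
  have hlog : Real.log (1 / (1 + Real.exp (-T) - 1)) = T := by
    rw [add_sub_cancel_left, one_div, ← Real.exp_neg, neg_neg, Real.log_exp]
  rw [hlog] at h
  have hp1 : (1 : ℝ) ≤ (p : ℝ) - 1 := by
    have : (2 : ℝ) ≤ p := by exact_mod_cast hp
    linarith
  have h6 : T ≤ ((p : ℝ) - 1) * T := by nlinarith
  have h7 : CM + p * CF + K ≤ |CM + p * CF + K| := le_abs_self _
  linarith

end Fermat.Agent.S14.Sep
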