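import Mathlib
import Fermat.Agent.S14.Defs

set_option autoImplicit false

/-!
# S14 / FD: Kummer extensions of prime degree and independence modulo `p`-th powers in towers
-/

universe u

namespace Fermat.Agent.S14.Sep

open Polynomial NumberField

/-- The Kummer extension `F(x^(1/p))` packaged existentially. -/
theorem exists_kummer {F : Type u} [Field F] [NumberField F] {p : ℕ} (hp : p.Prime) {ζ : F}
    (hζ : IsPrimitiveRoot ζ p) (x : F) (hx : ¬ IsPPow p x) :
    ∃ (M : Type u) (_ : Field M) (_ : NumberField M) (_ : Algebra F M) (_ : IsGalois F M) (Y : M)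
      (σ : M ≃ₐ[F] M), Module.finrank F M = p ∧ Y ^ p = algebraMap F M x ∧
      σ Y = algebraMap F M ζ * Y ∧ ∀ w : M, σ w = w → w ∈ Set.range (algebraMap F M) := by
  have H : Irreducible (X ^ p - C x : F[X]) :=
    X_pow_sub_C_irreducible_of_prime hp (fun b hb => hx ⟨b, hb⟩)
  have := Fact.mk H
  have : NeZero p := ⟨hp.ne_zero⟩
  have hζ' : (primitiveRoots p F).Nonempty := ⟨ζ, (mem_primitiveRoots hp.pos).2 hζ⟩
  have hsplit : IsSplittingField F (AdjoinRoot (X ^ p - C x : F[X])) (X ^ p - C x) :=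
    isSplittingField_AdjoinRoot_X_pow_sub_C hζ' H
  have hgal : IsGalois F (AdjoinRoot (X ^ p - C x : F[X])) :=
    isGalois_of_isSplittingField_X_pow_sub_C hζ' H _
  have hfin : Module.finrank F (AdjoinRoot (X ^ p - C x : F[X])) = p :=
    finrank_of_isSplittingField_X_pow_sub_C hζ' H _
  have hfd : FiniteDimensional F (AdjoinRoot (X ^ p - C x : F[X])) :=
    Polynomial.IsSplittingField.finiteDimensional _ (X ^ p - C x : F[X])
  have hnf : NumberField (AdjoinRoot (X ^ p - C x : F[X])) := NumberField.of_module_finite F _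
  have hx0 : x ≠ 0 := by
    rintro rfl
    exact hx ⟨0, zero_pow hp.ne_zero⟩
  set σ := autAdjoinRootXPowSubC p x hζ.toRootsOfUnity with hσ
  have hσroot : σ (AdjoinRoot.root _) = algebraMap F _ ζ * AdjoinRoot.root _ := by
    rw [hσ, autAdjoinRootXPowSubC_root, Algebra.smul_def]
    rfl
  have hroot0 : (AdjoinRoot.root (X ^ p - C x : F[X])) ≠ 0 :=
    root_X_pow_sub_C_ne_zero' hp.pos hx0
  refine ⟨AdjoinRoot (X ^ p - C x : F[X]), inferInstance, hnf, inferInstance, hgal,
    AdjoinRoot.root _, σ, hfin, root_X_pow_sub_C_pow p x, hσroot, ?_⟩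
  intro w hw
  have hcard : Nat.card (AdjoinRoot (X ^ p - C x : F[X]) ≃ₐ[F] AdjoinRoot (X ^ p - C x : F[X])) = p := by
    rw [IsGalois.card_aut_eq_finrank, hfin]
  have hσ1 : σ ≠ 1 := by
    intro h1
    rw [h1, AlgEquiv.one_apply] at hσroot
    have h2 : algebraMap F (AdjoinRoot (X ^ p - C x : F[X])) ζ = 1 :=
      mul_right_cancel₀ hroot0 (by rw [one_mul]; exact hσroot.symm)
    have h3 : ζ = 1 := (algebraMap F (AdjoinRoot (X ^ p - C x : F[X]))).injective
      (by rw [h2, map_one])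
    exact hζ.ne_one hp.one_lt h3
  have := Fact.mk hp
  have htop : Subgroup.zpowers σ = ⊤ := zpowers_eq_top_of_prime_card hcard hσ1
  rw [IsGalois.mem_range_algebraMap_iff_fixed]
  intro τ
  have hτ : τ ∈ Subgroup.zpowers σ := by rw [htop]; trivial
  obtain ⟨k, rfl⟩ := Subgroup.mem_zpowers_iff.1 hτ
  have hstab : σ ∈ MulAction.stabilizer
      (AdjoinRoot (X ^ p - C x : F[X]) ≃ₐ[F] AdjoinRoot (X ^ p - C x : F[X])) w := hw
  exact Subgroup.zpow_mem _ hstab k

/-- One Kummer step: an element of `F` which becomes a `p`-th power in `F(x^(1/p))` is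
`x ^ e * c ^ p`. -/
theorem exists_eq_pow_mul_pow {F M : Type*} [Field F] [Field M] [Algebra F M] {p : ℕ}
    (hp : p.Prime) {ζ : F} (hζ : IsPrimitiveRoot ζ p) (x : F) (Y : M) (σ : M ≃ₐ[F] M)
    (hY : Y ^ p = algebraMap F M x) (hσ : σ Y = algebraMap F M ζ * Y)
    (hfix : ∀ w : M, σ w = w → w ∈ Set.range (algebraMap F M)) (hx0 : x ≠ 0)
    (z : F) (hz : IsPPow p (algebraMap F M z)) : ∃ (e : ℕ) (c : F), z = x ^ e * c ^ p := by
  obtain ⟨w, hw⟩ := hz
  have : NeZero p := ⟨hp.ne_zero⟩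
  have hinj : Function.Injective (algebraMap F M) := (algebraMap F M).injective
  by_cases hw0 : w = 0
  · refine ⟨0, 0, hinj ?_⟩
    rw [← hw, hw0]
    simp [hp.ne_zero]
  have hY0 : Y ≠ 0 := by
    rintro rfl
    rw [zero_pow hp.ne_zero] at hY
    exact hx0 (hinj (by rw [← hY, map_zero]))
  have hζ' : IsPrimitiveRoot (algebraMap F M ζ) p := hζ.map_of_injective hinj
  have h1 : (σ w / w) ^ p = 1 := by
    rw [div_pow, ← map_pow, hw, AlgEquiv.commutes, div_self]
    rw [← hw]
    exact pow_ne_zero _ hw0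
  obtain ⟨e, -, he⟩ := hζ'.eq_pow_of_pow_eq_one h1
  have h2 : σ w = algebraMap F M ζ ^ e * w := by
    rw [he, div_mul_cancel₀ _ hw0]
  have h3 : σ (w / Y ^ e) = w / Y ^ e := by
    rw [map_div₀, map_pow, hσ, h2, mul_pow,
      mul_div_mul_left _ _ (pow_ne_zero _ (hζ'.ne_zero hp.ne_zero))]
  obtain ⟨c, hc⟩ := hfix _ h3
  refine ⟨e, c, hinj ?_⟩
  rw [map_mul, map_pow, map_pow, hc, ← hY, ← hw, div_pow, ← pow_mul, ← pow_mul, mul_comm p e,
    mul_div_cancel₀ _ (pow_ne_zero _ hY0)]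

/-- The tower lemma: adjoin `p`-th roots of the `y i`, `i ∈ t`; the remaining `y i` stay
independent modulo `p`-th powers. -/
theorem exists_tower {F : Type u} [Field F] [NumberField F] {p : ℕ} (hp : p.Prime) {ζ : F}
    (hζ : IsPrimitiveRoot ζ p) {ι : Type*} [Fintype ι] [DecidableEq ι] (y : ι → F)
    (hy0 : ∀ i, y i ≠ 0)
    (hy : ∀ e : ι → ℤ, IsPPow p (∏ i, y i ^ e i) → ∀ i, (p : ℤ) ∣ e i) (t : Finset ι) :
    ∃ (F' : Type u) (_ : Field F') (_ : NumberField F') (φ : F →+* F'),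
      (∀ i ∈ t, IsPPow p (φ (y i))) ∧
      ∀ e : ι → ℤ, (∀ i ∈ t, e i = 0) → IsPPow p (∏ i, φ (y i) ^ e i) → ∀ i, (p : ℤ) ∣ e i := by
  induction t using Finset.induction_on with
  | empty =>
    exact ⟨F, inferInstance, inferInstance, RingHom.id F, by simp, fun e _ he => hy e he⟩
  | insert i₀ t hi₀ ih =>
    obtain ⟨F', _, _, φ, h1, h2⟩ := ih
    have hx : ¬ IsPPow p (φ (y i₀)) := by
      intro hpp
      have h3 := h2 (Pi.single i₀ 1) (by
        intro i hi
        rw [Pi.single_eq_of_ne]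
        rintro rfl
        exact hi₀ hi) (by
        rw [Finset.prod_eq_single i₀]
        · simpa using hpp
        · intro i _ hi
          rw [Pi.single_eq_of_ne hi, zpow_zero]
        · intro h; exact absurd (Finset.mem_univ _) h) i₀
      rw [Pi.single_eq_same] at h3
      have h4 : (p : ℤ) = 1 ∨ (p : ℤ) = -1 := by
        have := Int.isUnit_iff.1 (isUnit_of_dvd_one h3)
        exact this
      have hp2 : (2 : ℤ) ≤ p := by exact_mod_cast hp.two_le
      omega
    have hζ' : IsPrimitiveRoot (φ ζ) p := hζ.map_of_injective φ.injective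
    obtain ⟨M, _, _, _, _, Y, σ, -, hY, hσ, hfix⟩ := exists_kummer hp hζ' (φ (y i₀)) hx
    have hφ0 : ∀ i, φ (y i) ≠ 0 := fun i => (map_ne_zero φ).2 (hy0 i)
    refine ⟨M, inferInstance, inferInstance, (algebraMap F' M).comp φ, ?_, ?_⟩
    · intro i hi
      rcases Finset.mem_insert.1 hi with rfl | hi
      · exact ⟨Y, hY⟩
      · obtain ⟨c, hc⟩ := h1 i hi
        exact ⟨algebraMap F' M c, by rw [← map_pow, hc]; rfl⟩
    · intro e he hpp
      have h3 : IsPPow p (algebraMap F' M (∏ i, φ (y i) ^ e i)) := by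
        rw [map_prod]
        convert hpp using 2 with i
        rw [map_zpow₀]
        rfl
      obtain ⟨k, c, hkc⟩ := exists_eq_pow_mul_pow hp hζ' (φ (y i₀)) Y σ hY hσ hfix (hφ0 i₀) _ h3
      have h4 := h2 (fun i => e i - (Pi.single i₀ (k : ℤ) : ι → ℤ) i) (by
        intro i hi
        rw [he i (Finset.mem_insert_of_mem hi), Pi.single_eq_of_ne, sub_zero]
        rintro rfl
        exact hi₀ hi) (by
        refine ⟨c, ?_⟩
        have h5 : ∏ i, φ (y i) ^ (e i - (Pi.single i₀ (k : ℤ) : ι → ℤ) i)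
            = (∏ i, φ (y i) ^ e i) / ∏ i, φ (y i) ^ ((Pi.single i₀ (k : ℤ) : ι → ℤ) i) := by
          rw [← Finset.prod_div_distrib]
          exact Finset.prod_congr rfl fun i _ => zpow_sub₀ (hφ0 i) _ _
        have h6 : ∏ i, φ (y i) ^ ((Pi.single i₀ (k : ℤ) : ι → ℤ) i) = φ (y i₀) ^ k := by
          rw [Finset.prod_eq_single i₀]
          · rw [Pi.single_eq_same, zpow_natCast]
          · intro i _ hi
            rw [Pi.single_eq_of_ne hi, zpow_zero]
          · intro h; exact absurd (Finset.mem_univ _) h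
        rw [h5, h6, hkc, mul_div_cancel_left₀ _ (pow_ne_zero _ (hφ0 i₀))])
      intro i
      by_cases hi : i = i₀
      · rw [hi, he i₀ (Finset.mem_insert_self _ _)]
        exact dvd_zero _
      · have := h4 i
        rwa [Pi.single_eq_of_ne hi, sub_zero] at this

end Fermat.Agent.S14.Sep
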