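import Fermat.Agent.S14.Sep.Split
import Fermat.Agent.S14.Sep.Analytic
import Fermat.Agent.S14.Sep.Kummer

set_option autoImplicit false

/-!
# S14 / NS, FD: integral versions (prime ideals, residues as ideal membership)
-/

universe u

namespace Fermat.Agent.S14.Sep

open NumberField
open scoped Pointwise

/-- The number of ideals of norm `n`. -/
noncomputable def idealCount (K : Type*) [Field K] [NumberField K] (n : ℕ) : ℕ :=
  Nat.card {I : Ideal (𝓞 K) // Ideal.absNorm I = n}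

/-- The analytic input (prime ideal theorem in logarithmic form), for all number fields of a
universe. -/
def AnalyticInput : Prop :=
  ∀ (K : Type u) [Field K] [NumberField K], HasLogAsymp (idealCount K)

/-- Modulo a prime ideal of prime norm every integer of `K` is congruent to a rational integer. -/
theorem exists_int_sub_mem {K : Type*} [Field K] [NumberField K] (Q : Ideal (𝓞 K))
    (hQ : (Ideal.absNorm Q).Prime) (x : 𝓞 K) : ∃ n : ℤ, x - (n : 𝓞 K) ∈ Q := by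
  have := Fact.mk hQ
  have hcard : Nat.card (𝓞 K ⧸ Q) = Ideal.absNorm Q := by
    rw [Ideal.absNorm_apply, Submodule.cardQuot_apply]
  have h1 : (1 : 𝓞 K ⧸ Q) ≠ 0 := by
    intro h
    have h2 : (1 : 𝓞 K) ∈ Q := Ideal.Quotient.eq_zero_iff_mem.1 (by simpa using h)
    have h3 : Q = ⊤ := (Ideal.eq_top_iff_one Q).2 h2
    rw [h3, Ideal.absNorm_top] at hQ
    exact Nat.not_prime_one hQ
  have htop := zmultiples_eq_top_of_prime_card hcard h1
  have hx : Ideal.Quotient.mk Q x ∈ AddSubgroup.zmultiples (1 : 𝓞 K ⧸ Q) := by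
    rw [htop]; trivial
  obtain ⟨n, hn⟩ := AddSubgroup.mem_zmultiples_iff.1 hx
  refine ⟨n, ?_⟩
  rw [← Ideal.Quotient.eq_zero_iff_mem, map_sub, ← hn]
  simp

/-- **NS**, integral form. -/
theorem exists_prime_not_residue (hA : AnalyticInput.{u}) {F : Type u} [Field F] [NumberField F]
    {p : ℕ} (hp : p.Prime) {ζ : F} (hζ : IsPrimitiveRoot ζ p) (a d : 𝓞 F) (hd : d ≠ 0)
    (ha : ¬ IsPPow p (a : F)) :
    ∃ P : Ideal (𝓞 F), P.IsPrime ∧ (Ideal.absNorm P).Prime ∧ d ∉ P ∧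
      ¬ ∃ c : 𝓞 F, c ^ p - a ∈ P := by
  by_contra hcon
  push Not at hcon
  have : NeZero p := ⟨hp.ne_zero⟩
  obtain ⟨M, _, _, _, _, Y, σ, hdeg, hY, hσ, -⟩ := exists_kummer hp hζ (a : F) ha
  have ha0 : a ≠ 0 := by
    rintro rfl
    exact ha ⟨0, by simp [hp.ne_zero]⟩
  have hYint : IsIntegral ℤ Y := by
    apply IsIntegral.of_pow hp.pos
    rw [hY]
    exact (RingOfIntegers.isIntegral_coe a).algebraMap
  set Yh : 𝓞 M := ⟨Y, hYint⟩ with hYh
  have hYh1 : Yh ^ p = algebraMap (𝓞 F) (𝓞 M) a := RingOfIntegers.ext hY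
  have hYh2 : σ • Yh = algebraMap (𝓞 F) (𝓞 M) hζ.toInteger * Yh := RingOfIntegers.ext hσ
  set d' : 𝓞 F := d * a * (p : 𝓞 F) with hd'
  have hp0 : (p : 𝓞 F) ≠ 0 := by exact_mod_cast hp.ne_zero
  have hd'0 : d' ≠ 0 := mul_ne_zero (mul_ne_zero hd ha0) hp0
  set D : ℕ := Ideal.absNorm (Ideal.span {d'}) with hD
  have hD0 : D ≠ 0 := by
    rw [hD, Ne, Ideal.absNorm_eq_zero_iff, Ideal.span_singleton_eq_bot]
    exact hd'0
  refine false_of_hasLogAsymp (idealCount F) (idealCount M) p hp.two_le D.divisors ?_ (hA F) (hA M)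
  intro l hl
  refine mul_card_le_card (l : ℕ) ?_
  intro P hP
  have hPprime : P.IsPrime := Ideal.isPrime_of_irreducible_absNorm (by rw [hP]; exact l.2)
  have hd'P : d' ∉ P := by
    intro hmem
    apply hl
    rw [Nat.mem_divisors]
    refine ⟨?_, hD0⟩
    rw [← hP]
    exact Ideal.absNorm_dvd_absNorm_of_le ((Ideal.span_singleton_le_iff_mem P).2 hmem)
  have hdP : d ∉ P := fun h => hd'P (P.mul_mem_right _ (P.mul_mem_right _ h))
  have haP : a ∉ P := fun h => hd'P (P.mul_mem_right _ (P.mul_mem_left _ h))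
  have hpP : (p : 𝓞 F) ∉ P := fun h => hd'P (P.mul_mem_left _ h)
  obtain ⟨c, hc⟩ := hcon P hPprime (by rw [hP]; exact l.2) hdP
  obtain ⟨⟨Q, hQ1, hQ2⟩⟩ := (inferInstance : Nonempty (P.primesOver (𝓞 M)))
  exact split_of_smul_ne hp hdeg P Q σ
    (smul_ne_of_residue hp P Q σ hζ.toInteger a c Yh hζ.toInteger_isPrimitiveRoot hYh1 hYh2 hc haP
      hpP)

/-- **FD**, integral form. -/
theorem exists_prime_sep (hA : AnalyticInput.{u}) {F : Type u} [Field F] [NumberField F]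
    {p : ℕ} (hp : p.Prime) {ζ : F} (hζ : IsPrimitiveRoot ζ p) {ι : Type*} [Fintype ι]
    [DecidableEq ι] (a : ι → 𝓞 F) (ha0 : ∀ i, a i ≠ 0)
    (hind : ∀ e : ι → ℤ, IsPPow p (∏ i, (a i : F) ^ e i) → ∀ i, (p : ℤ) ∣ e i) (j : ι)
    (d : 𝓞 F) (hd : d ≠ 0) :
    ∃ P : Ideal (𝓞 F), P.IsPrime ∧ P ≠ ⊥ ∧ d ∉ P ∧
      (∀ i, i ≠ j → ∃ c : 𝓞 F, c ^ p - a i ∈ P) ∧ ¬ ∃ c : 𝓞 F, c ^ p - a j ∈ P := by
  obtain ⟨F', _, _, φ, h1, h2⟩ := exists_tower hp hζ (fun i => (a i : F))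
    (fun i => by simpa using ha0 i) hind (Finset.univ.erase j)
  set ψ : 𝓞 F →+* 𝓞 F' := RingOfIntegers.mapRingHom φ with hψ
  have hψcoe : ∀ x : 𝓞 F, ((ψ x : 𝓞 F') : F') = φ (x : F) := fun _ => rfl
  have hψinj : Function.Injective ψ := by
    intro x y hxy
    apply RingOfIntegers.ext
    apply φ.injective
    rw [← hψcoe, ← hψcoe, hxy]
  have hj : ¬ IsPPow p ((ψ (a j) : 𝓞 F') : F') := by
    intro hpp
    have h3 := h2 (Pi.single j 1) (by
      intro i hi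
      rw [Pi.single_eq_of_ne (Finset.ne_of_mem_erase hi)]) (by
      rw [Finset.prod_eq_single j]
      · rw [Pi.single_eq_same, zpow_one]
        exact hpp
      · intro i _ hi
        rw [Pi.single_eq_of_ne hi, zpow_zero]
      · intro h; exact absurd (Finset.mem_univ _) h) j
    rw [Pi.single_eq_same] at h3
    have h4 := Int.isUnit_iff.1 (isUnit_of_dvd_one h3)
    have hp2 : (2 : ℤ) ≤ p := by exact_mod_cast hp.two_le
    omega
  obtain ⟨Q, hQ1, hQ2, hQ3, hQ4⟩ := exists_prime_not_residue hA hp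
    (hζ.map_of_injective φ.injective) (ψ (a j)) (ψ d) ((map_ne_zero_iff ψ hψinj).2 hd) hj
  refine ⟨Q.comap ψ, Ideal.comap_isPrime ψ Q, ?_, hQ3, ?_, ?_⟩
  · intro hbot
    have h3 : ((Ideal.absNorm Q : ℕ) : 𝓞 F) ∈ Q.comap ψ := by
      rw [Ideal.mem_comap, map_natCast]
      exact Ideal.absNorm_mem Q
    rw [hbot, Ideal.mem_bot] at h3
    exact hQ2.ne_zero (by exact_mod_cast h3)
  · intro i hi
    obtain ⟨y, hy⟩ := h1 i (Finset.mem_erase.2 ⟨hi, Finset.mem_univ _⟩)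
    have hyint : IsIntegral ℤ y := by
      apply IsIntegral.of_pow hp.pos
      rw [hy, ← hψcoe]
      exact RingOfIntegers.isIntegral_coe _
    obtain ⟨yh, hyh⟩ : ∃ yh : 𝓞 F', (yh : F') = y := ⟨⟨y, hyint⟩, rfl⟩
    obtain ⟨n, hn⟩ := exists_int_sub_mem Q hQ2 yh
    refine ⟨(n : 𝓞 F), ?_⟩
    rw [Ideal.mem_comap, map_sub, map_pow, map_intCast]
    have h4 : ψ (a i) = yh ^ p := RingOfIntegers.ext (by
      rw [hψcoe, ← hy, ← hyh]
      rfl)
    rw [h4]
    have h5 : yh ^ p - (n : 𝓞 F') ^ p ∈ Q :=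
      Q.mem_of_dvd (sub_dvd_pow_sub_pow _ _ p) hn
    have h6 : (n : 𝓞 F') ^ p - yh ^ p = -(yh ^ p - (n : 𝓞 F') ^ p) := by ring
    rw [h6]
    exact Q.neg_mem h5
  · rintro ⟨c, hc⟩
    apply hQ4
    refine ⟨ψ c, ?_⟩
    rw [← map_pow, ← map_sub]
    exact hc

end Fermat.Agent.S14.Sep
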