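import Mathlib

set_option autoImplicit false

/-!
# S14 / NS: splitting of primes in a cyclic extension of prime degree, counting ideals of norm `l`
-/

namespace Fermat.Agent.S14.Sep

open NumberField
open scoped Pointwise

variable {F M : Type*} [Field F] [NumberField F] [Field M] [NumberField M] [Algebra F M]
  [IsGalois F M] {p : ℕ}

/-- If some Galois element moves a prime `Q` above `P` (degree `p` prime), then `P` splits
completely: there are `p` primes above `P`, all of the same absolute norm as `P`. -/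
theorem split_of_smul_ne (hp : p.Prime) (hdeg : Module.finrank F M = p) (P : Ideal (𝓞 F))
    [P.IsPrime] (Q : Ideal (𝓞 M)) [Q.IsPrime] [Q.LiesOver P] (σ : Gal(M/F)) (hσ : σ • Q ≠ Q) :
    (P.primesOver (𝓞 M)).ncard = p ∧
      ∀ Q' ∈ P.primesOver (𝓞 M), Ideal.absNorm Q' = Ideal.absNorm P := by
  have H := Ideal.ncard_primesOver_mul_ramificationIdxIn_mul_inertiaDegIn P (𝓞 M) Gal(M/F)
  rw [IsGaloisGroup.card_eq_finrank Gal(M/F) F M, hdeg] at H
  have hfin : (P.primesOver (𝓞 M)).Finite := Algebra.QuasiFinite.finite_primesOver P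
  have h1 : Q ∈ P.primesOver (𝓞 M) := ⟨inferInstance, inferInstance⟩
  have h2 : σ • Q ∈ P.primesOver (𝓞 M) := ⟨inferInstance, inferInstance⟩
  have hcard : 1 < (P.primesOver (𝓞 M)).ncard :=
    (Set.one_lt_ncard hfin).2 ⟨σ • Q, h2, Q, h1, hσ⟩
  have hdvd : (P.primesOver (𝓞 M)).ncard ∣ p := Dvd.intro _ H
  have hn : (P.primesOver (𝓞 M)).ncard = p := by
    rcases (Nat.dvd_prime hp).1 hdvd with h | h
    · omega
    · exact h
  refine ⟨hn, ?_⟩
  rw [hn] at H
  have hef : P.ramificationIdxIn (𝓞 M) * P.inertiaDegIn (𝓞 M) = 1 := by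
    have := Nat.eq_of_mul_eq_mul_left hp.pos (H.trans (mul_one p).symm)
    exact this
  have hf : P.inertiaDegIn (𝓞 M) = 1 := Nat.eq_one_of_mul_eq_one_left hef
  rintro Q' ⟨hQ'1, hQ'2⟩
  have h3 := Ideal.inertiaDegIn_eq_inertiaDeg P Q' Gal(M/F)
  have h4 := Ideal.absNorm_pow_inertiaDeg P Q'
  rw [← h3, hf, pow_one] at h4
  exact h4.symm

omit [NumberField F] [NumberField M] [IsGalois F M] in
/-- If `ζ ≡ 1` modulo a prime ideal and `1 + ζ + ⋯ + ζ^(p-1) = 0` then `p` lies in the ideal. -/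
theorem natCast_mem_of_sub_one_mem {R : Type*} [CommRing R] (P : Ideal R) (z : R)
    (hz : ∑ i ∈ Finset.range p, z ^ i = 0) (h : z - 1 ∈ P) : (p : R) ∈ P := by
  have h1 : (p : R) = - ∑ i ∈ Finset.range p, (z ^ i - 1) := by
    rw [Finset.sum_sub_distrib, hz]
    simp
  rw [h1]
  refine P.neg_mem (P.sum_mem fun i _ => ?_)
  exact P.mem_of_dvd (by simpa using sub_dvd_pow_sub_pow z 1 i) h

/-- The Kummer generator moves every prime above a "good" prime at which `a` is a residue. -/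
theorem smul_ne_of_residue (hp : p.Prime) (P : Ideal (𝓞 F)) [P.IsPrime] (Q : Ideal (𝓞 M))
    [Q.IsPrime] [Q.LiesOver P] (σ : Gal(M/F)) (z a c : 𝓞 F) (Y : 𝓞 M)
    (hz : IsPrimitiveRoot z p) (hY : Y ^ p = algebraMap (𝓞 F) (𝓞 M) a)
    (hσ : σ • Y = algebraMap (𝓞 F) (𝓞 M) z * Y) (hc : c ^ p - a ∈ P) (ha : a ∉ P)
    (hpP : (p : 𝓞 F) ∉ P) : σ • Q ≠ Q := by
  intro hQ
  have : NeZero p := ⟨hp.ne_zero⟩
  have hmem : ∀ x : 𝓞 F, algebraMap (𝓞 F) (𝓞 M) x ∈ Q ↔ x ∈ P := by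
    intro x
    rw [Ideal.mem_of_liesOver Q P x]
  have hinj : Function.Injective (algebraMap (𝓞 F) (𝓞 M)) :=
    FaithfulSMul.algebraMap_injective _ _
  have hz' : IsPrimitiveRoot (algebraMap (𝓞 F) (𝓞 M) z) p := hz.map_of_injective hinj
  have h1 : Y ^ p - (algebraMap (𝓞 F) (𝓞 M) c) ^ p ∈ Q := by
    rw [hY, ← map_pow, ← map_sub, hmem]
    have : a - c ^ p = -(c ^ p - a) := by ring
    rw [this]
    exact P.neg_mem hc
  rw [hz'.pow_sub_pow_eq_prod_sub_mul _ _ hp.pos] at h1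
  obtain ⟨η, hη, hηQ⟩ := (Ideal.IsPrime.prod_mem_iff).1 h1
  rw [Polynomial.mem_nthRootsFinset hp.pos] at hη
  obtain ⟨i, -, rfl⟩ := hz'.eq_pow_of_pow_eq_one hη
  -- apply `σ`
  have h2 : σ • (Y - algebraMap (𝓞 F) (𝓞 M) z ^ i * algebraMap (𝓞 F) (𝓞 M) c) ∈ Q := by
    rw [← hQ]
    exact Ideal.smul_mem_pointwise_smul _ _ _ hηQ
  rw [smul_sub, hσ, ← map_pow, ← map_mul, smul_algebraMap] at h2
  have h3 : algebraMap (𝓞 F) (𝓞 M) (z ^ i * c * (z - 1)) ∈ Q := by
    have h4 := Q.sub_mem (Q.mul_mem_left (algebraMap (𝓞 F) (𝓞 M) z) hηQ) h2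
    have h5 : algebraMap (𝓞 F) (𝓞 M) z *
        (Y - algebraMap (𝓞 F) (𝓞 M) z ^ i * algebraMap (𝓞 F) (𝓞 M) c) -
        (algebraMap (𝓞 F) (𝓞 M) z * Y - algebraMap (𝓞 F) (𝓞 M) (z ^ i * c))
        = - algebraMap (𝓞 F) (𝓞 M) (z ^ i * c * (z - 1)) := by
      simp only [map_mul, map_sub, map_pow, map_one]
      ring
    rw [h5] at h4
    simpa using Q.neg_mem h4
  rw [hmem] at h3
  rcases (Ideal.IsPrime.mem_or_mem inferInstance h3) with h6 | h6
  · rcases (Ideal.IsPrime.mem_or_mem inferInstance h6) with h7 | h7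
    · have h8 : z ^ p ∈ P := by
        have : z ∈ P := Ideal.IsPrime.mem_of_pow_mem inferInstance i h7
        exact P.pow_mem_of_mem this p hp.pos
      rw [hz.pow_eq_one] at h8
      exact (Ideal.IsPrime.ne_top inferInstance) ((Ideal.eq_top_iff_one P).2 h8)
    · apply ha
      have h8 : c ^ p ∈ P := P.pow_mem_of_mem h7 p hp.pos
      have := P.sub_mem h8 hc
      simpa using this
  · exact hpP (natCast_mem_of_sub_one_mem P z (hz.geom_sum_eq_zero hp.one_lt) h6)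

omit [IsGalois F M] in
/-- Counting: if every ideal of norm `l` of `F` has `p` primes of the same norm above it, then
`M` has at least `p` times as many ideals of norm `l`. -/
theorem mul_card_le_card (l : ℕ)
    (H : ∀ P : Ideal (𝓞 F), Ideal.absNorm P = l → (P.primesOver (𝓞 M)).ncard = p ∧
      ∀ Q' ∈ P.primesOver (𝓞 M), Ideal.absNorm Q' = Ideal.absNorm P) :
    p * Nat.card {I : Ideal (𝓞 F) // Ideal.absNorm I = l} ≤
      Nat.card {J : Ideal (𝓞 M) // Ideal.absNorm J = l} := by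
  classical
  have hfinF : Finite {I : Ideal (𝓞 F) // Ideal.absNorm I = l} :=
    (Ideal.finite_setOfPred_absNorm_eq l).to_subtype
  have hfinM : Finite {J : Ideal (𝓞 M) // Ideal.absNorm J = l} :=
    (Ideal.finite_setOfPred_absNorm_eq l).to_subtype
  have : Fintype {I : Ideal (𝓞 F) // Ideal.absNorm I = l} := Fintype.ofFinite _
  let Φ : (Σ I : {I : Ideal (𝓞 F) // Ideal.absNorm I = l}, ↥(I.1.primesOver (𝓞 M))) →
      {J : Ideal (𝓞 M) // Ideal.absNorm J = l} :=
    fun x => ⟨x.2.1, by rw [(H x.1.1 x.1.2).2 x.2.1 x.2.2, x.1.2]⟩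
  have hΦ : Function.Injective Φ := by
    rintro ⟨⟨I, hI⟩, ⟨Q, hQ⟩⟩ ⟨⟨I', hI'⟩, ⟨Q', hQ'⟩⟩ h
    have hQQ : Q = Q' := congrArg Subtype.val h
    subst hQQ
    have hII : I = I' := hQ.2.over.trans hQ'.2.over.symm
    subst hII
    rfl
  have hfib : ∀ I : {I : Ideal (𝓞 F) // Ideal.absNorm I = l},
      Nat.card ↥(I.1.primesOver (𝓞 M)) = p := by
    intro I
    rw [Nat.card_coe_set_eq]
    exact (H I.1 I.2).1
  have hfibfin : ∀ I : {I : Ideal (𝓞 F) // Ideal.absNorm I = l},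
      Finite ↥(I.1.primesOver (𝓞 M)) := by
    intro I
    by_cases hp0 : p = 0
    · exact Set.Finite.to_subtype (Algebra.QuasiFinite.finite_primesOver I.1)
    · exact Nat.finite_of_card_ne_zero (by rw [hfib I]; exact hp0)
  have h1 := Nat.card_le_card_of_injective Φ hΦ
  rw [Nat.card_sigma] at h1
  simp only [hfib, Finset.sum_const, Finset.card_univ, smul_eq_mul] at h1
  rw [Nat.card_eq_fintype_card, mul_comm]
  exact h1

end Fermat.Agent.S14.Sep
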